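import Fermat.Agent.ArtinSchreier.Prime

/-!
# The theorem of Artin and Schreier

An algebraically closed field that is finite and of degree `> 1` over `F` is `F(i)`; then `F` is
real closed. Hence an automorphism of finite order of an algebraically closed field is an
involution, and only the identity in positive characteristic.
-/

set_option autoImplicit false
set_option linter.unusedSectionVars false
set_option linter.style.haveILetI false

noncomputable section

open Polynomial Module IntermediateField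

namespace FA.ArtinSchreier

variable {F C : Type*} [Field F] [Field C] [IsAlgClosed C] [Algebra F C] [FiniteDimensional F C]

theorem adjoin_eq_top {i : C} (hi : i * i = -1) : F⟮i⟯ = ⊤ := by
  by_contra hne
  haveI := isGalois_of_finite F⟮i⟯ C
  have h1 : finrank F⟮i⟯ C ≠ 1 := fun h => hne (finrank_eq_one_iff_eq_top.1 h)
  set q := (finrank F⟮i⟯ C).minFac
  have hq : q.Prime := Nat.minFac_prime h1
  haveI := Fact.mk hq
  obtain ⟨σ, hσ⟩ := exists_prime_orderOf_dvd_card' q (G := C ≃ₐ[F⟮i⟯] C)
    (by rw [IsGalois.card_aut_eq_finrank]; exact Nat.minFac_dvd _)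
  set E := IntermediateField.fixedField (Subgroup.zpowers σ)
  have hdeg : finrank E C = q := by
    rw [IntermediateField.finrank_fixedField_eq_card, Nat.card_zpowers, hσ]
  refine (prime_degree hq hdeg).2.1
    ⟨algebraMap F⟮i⟯ E ⟨i, mem_adjoin_simple_self F i⟩, Subtype.ext ?_⟩
  simpa using hi.symm

theorem finrank_eq_two (hne : finrank F C ≠ 1) : finrank F C = 2 := by
  obtain ⟨i, hi⟩ := IsAlgClosed.exists_eq_mul_self (-1 : C)
  have hint := IsIntegral.of_finite F i
  have h2 : (minpoly F i).natDegree ≤ 2 := by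
    refine (natDegree_le_of_dvd (minpoly.dvd F i (p := X ^ 2 + 1) ?_) ?_).trans ?_
    · simp [sq, ← hi]
    · exact (by monicity! : (X ^ 2 + 1 : F[X]).Monic).ne_zero
    · compute_degree!
  rw [← IntermediateField.adjoin.finrank hint, adjoin_eq_top hi.symm, finrank_top'] at h2
  have := finrank_pos (R := F) (M := C)
  omega

theorem sq_add_sq (hdeg : finrank F C = 2) (a b : F) : IsSquare (a * a + b * b) := by
  obtain ⟨σ, -, hfix, hpow⟩ := exists_ne_one Nat.prime_two hdeg
  obtain ⟨i, hi⟩ := IsAlgClosed.exists_eq_mul_self (-1 : C)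
  have hσi : σ i = -i := by
    have h : σ i * σ i = i * i := by rw [← map_mul, ← hi, map_neg, map_one]
    refine (mul_self_eq_mul_self_iff.1 h).resolve_left fun h1 => ?_
    obtain ⟨j, hj⟩ := hfix i h1
    exact (prime_degree Nat.prime_two hdeg).2.1 ⟨j, (algebraMap F C).injective (by simp [hj, hi])⟩
  obtain ⟨γ, hγ⟩ := IsAlgClosed.exists_eq_mul_self (algebraMap F C a + algebraMap F C b * i)
  have hinv : σ (σ γ) = γ := by rw [← AlgEquiv.mul_apply, ← sq, hpow, AlgEquiv.one_apply]
  obtain ⟨c, hc⟩ := hfix (σ γ * γ) (by rw [map_mul, hinv, mul_comm])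
  refine ⟨c, (algebraMap F C).injective ?_⟩
  have h2 := congrArg σ hγ
  rw [map_add, map_mul, map_mul, σ.commutes, σ.commutes, hσi] at h2
  simp only [map_add, map_mul, hc]
  linear_combination (algebraMap F C a + algebraMap F C b * -i) * hγ + (γ * γ) * h2 -
    (algebraMap F C b) ^ 2 * hi

theorem isSquare_of_isSumSq (hdeg : finrank F C = 2) {x : F} (hx : IsSumSq x) : IsSquare x := by
  induction hx with
  | zero => exact IsSquare.zero
  | sq_add c hs ih =>
    obtain ⟨d, rfl⟩ := ih
    exact sq_add_sq hdeg c d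

theorem exists_irreducible_odd (f : F[X]) (hf : Odd f.natDegree) :
    ∃ q : F[X], Irreducible q ∧ q ∣ f ∧ Odd q.natDegree := by
  induction f using UniqueFactorizationMonoid.induction_on_prime with
  | h₁ => simp at hf
  | h₂ u hu => simp [natDegree_eq_zero_of_isUnit hu] at hf
  | h₃ g q hg hq ih =>
    rw [natDegree_mul hq.ne_zero hg] at hf
    rcases Nat.even_or_odd q.natDegree with he | ho
    · obtain ⟨r, h1, h2, h3⟩ := ih ((Nat.odd_add'.1 hf).2 he)
      exact ⟨r, h1, h2.trans (dvd_mul_left _ _), h3⟩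
    · exact ⟨q, hq.irreducible, dvd_mul_right _ _, ho⟩

/-- `F` is real closed. -/
theorem isRealClosed_bot (hdeg : finrank F C = 2) : IsRealClosed F := by
  haveI : IsSemireal F := IsSemireal.of_not_isSumSq_neg_one fun h =>
    (prime_degree Nat.prime_two hdeg).2.1 (isSquare_of_isSumSq hdeg h)
  refine { toIsSemireal := inferInstance,
           isSquare_or_isSquare_neg := (prime_degree Nat.prime_two hdeg).2.2,
           exists_isRoot_of_odd_natDegree := fun {f} hf => ?_ }
  obtain ⟨q, hq, hqf, hodd⟩ := exists_irreducible_odd f hf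
  obtain ⟨r, hr⟩ := IsAlgClosed.exists_root (q.map (algebraMap F C))
    (by rw [degree_map]; exact hq.degree_pos.ne')
  rw [IsRoot, eval_map_algebraMap] at hr
  have hle : q.natDegree ≤ 2 := by
    rw [minpoly.Irreducible.eq_minpoly hq hr, natDegree_C_mul (leadingCoeff_ne_zero.2 hq.ne_zero),
      ← hdeg]
    exact minpoly.natDegree_le r
  obtain ⟨x, hx⟩ := exists_root_of_degree_eq_one (p := q) (degree_eq_natDegree hq.ne_zero ▸ by
    have : q.natDegree = 1 := by obtain ⟨k, hk⟩ := hodd; omega
    rw [this]; rfl)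
  exact ⟨x, hx.dvd hqf⟩

/-- **Artin and Schreier.** -/
theorem artin_schreier (F C : Type*) [Field F] [Field C] [IsAlgClosed C] [Algebra F C]
    [FiniteDimensional F C] (hne : finrank F C ≠ 1) :
    finrank F C = 2 ∧ (∃ i : C, i * i = -1 ∧ F⟮i⟯ = ⊤) ∧ IsRealClosed F := by
  have h := finrank_eq_two (F := F) (C := C) hne
  obtain ⟨i, hi⟩ := IsAlgClosed.exists_eq_mul_self (-1 : C)
  exact ⟨h, ⟨i, hi.symm, adjoin_eq_top hi.symm⟩, isRealClosed_bot h⟩

/-! ### Automorphisms of finite order -/

/-- The fixed field of an automorphism. -/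
def fixedOf (σ : C ≃+* C) : Subfield C := σ.toRingHom.eqLocusField (RingHom.id C)

theorem mem_fixedOf {σ : C ≃+* C} {x : C} : x ∈ fixedOf σ ↔ σ x = x := Iff.rfl

theorem finite_over_fixedOf {D : Type*} [Field D] (σ : D ≃+* D) (h : IsOfFinOrder σ) :
    FiniteDimensional (fixedOf σ) D ∧ finrank (fixedOf σ) D = orderOf σ := by
  haveI : Finite (Subgroup.zpowers σ) := h.finite_zpowers.to_subtype
  let _ := Fintype.ofFinite (Subgroup.zpowers σ)
  have he : FixedPoints.subfield (Subgroup.zpowers σ) D = fixedOf σ := by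
    ext x
    refine ⟨fun hx => hx ⟨σ, Subgroup.mem_zpowers σ⟩, fun hx g => ?_⟩
    have hle : Subgroup.zpowers σ ≤ MulAction.stabilizer (D ≃+* D) x := Subgroup.zpowers_le.2 hx
    exact hle g.2
  rw [← he]
  exact ⟨inferInstance, by rw [FixedPoints.finrank_eq_card, ← Nat.card_eq_fintype_card,
    Nat.card_zpowers]⟩

/-- **Involutions**: an automorphism of finite order of an algebraically closed field has square
`1`; if it is not `1` the fixed field is real closed. -/
theorem torsion_ringEquiv {D : Type*} [Field D] [IsAlgClosed D] (σ : D ≃+* D)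
    (h : IsOfFinOrder σ) : σ ^ 2 = 1 ∧
      (σ ≠ 1 → IsRealClosed (fixedOf σ) ∧ finrank (fixedOf σ) D = 2) := by
  obtain ⟨_, hrank⟩ := finite_over_fixedOf σ h
  rcases eq_or_ne σ 1 with rfl | hne
  · exact ⟨one_pow _, fun h => absurd rfl h⟩
  · have h1 : finrank (fixedOf σ) D ≠ 1 := fun e => hne (orderOf_eq_one_iff.1 (hrank ▸ e))
    obtain ⟨h2, -, h3⟩ := artin_schreier (fixedOf σ) D h1
    refine ⟨?_, fun _ => ⟨h3, h2⟩⟩
    rw [← h2, hrank, pow_orderOf_eq_one]

/-- Positive characteristic: no torsion. -/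
theorem torsion_ringEquiv_charP {D : Type*} [Field D] [IsAlgClosed D] (p : ℕ) [CharP D p]
    (hp : p ≠ 0) (σ : D ≃+* D) (h : IsOfFinOrder σ) : σ = 1 := by
  by_contra hne
  haveI := ((torsion_ringEquiv σ h).2 hne).1
  haveI : CharP (fixedOf σ) p :=
    (RingHom.charP_iff (fixedOf σ).subtype Subtype.val_injective p).2 inferInstance
  exact hp (CharP.eq (fixedOf σ) inferInstance (CharP.ofCharZero _))

end FA.ArtinSchreier
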