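import Mathlib

/-!
# Real closed fields of algebraic numbers are real

A real closed field algebraic over `ℚ` is ordered by its squares, the order is archimedean and so
there is a homomorphism into `ℝ`.
-/

set_option autoImplicit false
set_option linter.style.haveILetI false

noncomputable section

open Polynomial

namespace FA.ArtinSchreier

variable (R : Type*) [Field R] [IsRealClosed R]

theorem eq_zero_of_sq_eq_neg_sq {s t : R} (h : s * s = -(t * t)) : s = 0 := by
  by_contra hs
  have h2 : IsSumSq (t / s * (t / s)) := IsSumSq.mul_self _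
  refine IsSemireal.one_add_ne_zero h2 ?_
  field_simp
  linear_combination h

/-- Sums of two squares. -/
theorem isSquare_sq_add_sq (a b : R) : IsSquare (a * a + b * b) := by
  rcases IsRealClosed.isSquare_or_isSquare_neg (a * a + b * b) with h | ⟨e, he⟩
  · exact h
  · have hsum : IsSumSq (b * b + e * e) := (IsSumSq.mul_self b).add (IsSumSq.mul_self e)
    have ha : a = 0 := by
      by_contra ha
      refine IsSemireal.one_add_ne_zero (s := (b / a) * (b / a) + (e / a) * (e / a))
        ((IsSumSq.mul_self _).add (IsSumSq.mul_self _)) ?_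
      field_simp
      linear_combination -he
    exact ⟨b, by rw [ha, zero_mul, zero_add]⟩

/-- The squares as a cone. -/
def squareCone : RingCone R where
  carrier := {x | IsSquare x}
  mul_mem' ha hb := ha.mul hb
  one_mem' := IsSquare.one
  add_mem' := by
    rintro _ _ ⟨a, rfl⟩ ⟨b, rfl⟩
    exact isSquare_sq_add_sq R a b
  zero_mem' := IsSquare.zero
  eq_zero_of_mem_of_neg_mem' := by
    rintro _ ⟨s, rfl⟩ ⟨t, ht⟩
    rw [eq_zero_of_sq_eq_neg_sq R (s := s) (t := t) (neg_eq_iff_eq_neg.1 ht), zero_mul]

instance hasMemOrNegMem_squareCone : HasMemOrNegMem (squareCone R) :=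
  ⟨IsRealClosed.isSquare_or_isSquare_neg⟩

/-- A bound for a root of a monic polynomial. -/
theorem le_sum_abs {K : Type*} [Field K] [LinearOrder K] [IsStrictOrderedRing K] {x : K} {n : ℕ}
    (hn : 0 < n) (c : ℕ → K) (h : x ^ n = ∑ i ∈ Finset.range n, c i * x ^ i) :
    x ≤ 1 + ∑ i ∈ Finset.range n, |c i| := by
  have hS : 0 ≤ ∑ i ∈ Finset.range n, |c i| := Finset.sum_nonneg fun i _ => abs_nonneg _
  rcases le_or_gt x 1 with hx | hx
  · linarith
  have hp : 0 < x ^ (n - 1) := pow_pos (by linarith) _
  have : x * x ^ (n - 1) ≤ (∑ i ∈ Finset.range n, |c i|) * x ^ (n - 1) := by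
    rw [← pow_succ', Nat.sub_add_cancel hn, h, Finset.sum_mul]
    refine Finset.sum_le_sum fun i hi => ?_
    refine (mul_le_mul_of_nonneg_right (le_abs_self _) (by positivity)).trans ?_
    exact mul_le_mul_of_nonneg_left (pow_le_pow_right₀ hx.le
      (Nat.le_sub_one_of_lt (Finset.mem_range.1 hi))) (abs_nonneg _)
  linarith [le_of_mul_le_mul_right this hp]

/-- **A homomorphism into `ℝ`.** -/
theorem exists_ringHom_real [CharZero R] [Algebra.IsAlgebraic ℚ R] : Nonempty (R →+* ℝ) := by
  classical
  let _ : LinearOrder R := LinearOrder.mkOfAddGroupCone (squareCone R)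
  haveI : IsOrderedRing R := IsOrderedRing.mkOfCone (squareCone R)
  haveI : Archimedean R := archimedean_iff_rat_le.2 fun x => by
    obtain ⟨p, hp, hroot⟩ := (Algebra.IsAlgebraic.isAlgebraic (R := ℚ) x).isIntegral
    have hn : 0 < p.natDegree := by
      by_contra h
      rw [Monic.natDegree_eq_zero hp |>.1 (by omega)] at hroot
      simp at hroot
    refine ⟨1 + ∑ i ∈ Finset.range p.natDegree, |p.coeff i|, ?_⟩
    push_cast
    refine (le_sum_abs hn (fun i => -(p.coeff i : R)) ?_).trans (le_of_eq ?_)
    · rw [← aeval_def, aeval_eq_sum_range, Finset.sum_range_succ, hp.coeff_natDegree, one_smul] at hroot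
      rw [eq_neg_of_add_eq_zero_right hroot, ← Finset.sum_neg_distrib]
      exact Finset.sum_congr rfl fun i _ => by
        rw [Algebra.smul_def, eq_ratCast, neg_mul]
    · simp [abs_neg]
  exact ⟨(ConditionallyCompleteLinearOrderedField.inducedOrderRingHom R ℝ).toRingHom⟩

end FA.ArtinSchreier
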