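import Mathlib

/-!
# Algebraically closed fields of prime degree over a subfield

If an algebraically closed field is finite over `F` then `F` is perfect. If the degree is a prime
`p` then `p` is not the characteristic, `p = 2`, `-1` is no square in `F` and every element of `F`
is a square or the negative of one (Artin and Schreier).
-/

set_option autoImplicit false
set_option linter.unusedSectionVars false
set_option linter.style.haveILetI false

noncomputable section

open Polynomial Module IntermediateField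

namespace FA.ArtinSchreier

variable {F C : Type*} [Field F] [Field C] [IsAlgClosed C] [Algebra F C] [FiniteDimensional F C]

/-- Every element of `F` is a `p`-th power in characteristic `p`. -/
theorem exists_pow_char_eq (F C : Type*) [Field F] [Field C] [IsAlgClosed C] [Algebra F C]
    [FiniteDimensional F C] (p : ℕ) [Fact p.Prime] [CharP F p] (a : F) : ∃ b, b ^ p = a := by
  haveI : CharP C p := charP_of_injective_algebraMap (algebraMap F C).injective p
  haveI : ExpChar C p := ExpChar.prime Fact.out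
  have hp : 0 < p := (Fact.out : p.Prime).pos
  set b := Module.finBasis F C
  have hpow : ∀ y : C, y ^ p = ∑ j, (b.repr y j) ^ p • b j ^ p := fun y => by
    conv_lhs => rw [← b.sum_repr y]
    rw [sum_pow_char]
    exact Finset.sum_congr rfl fun j _ => _root_.smul_pow _ _ p
  have hli : LinearIndependent F fun j => b j ^ p := by
    refine linearIndependent_of_top_le_span_of_card_eq_finrank (fun x _ => ?_) (Fintype.card_fin _)
    obtain ⟨y, rfl⟩ := IsAlgClosed.exists_pow_nat_eq x hp
    rw [hpow]
    exact Submodule.sum_mem _ fun j _ => Submodule.smul_mem _ _ (Submodule.subset_span ⟨j, rfl⟩)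
  set i₀ : Fin (finrank F C) := ⟨0, finrank_pos⟩
  obtain ⟨y, hy⟩ := IsAlgClosed.exists_pow_nat_eq (a • b i₀ ^ p) hp
  refine ⟨b.repr y i₀, ?_⟩
  have h := Fintype.linearIndependent_iff.1 hli
    (fun j => b.repr y j ^ p - if j = i₀ then a else 0) ?_ i₀
  · simpa [sub_eq_zero] using h
  · simp only [sub_smul, ite_smul, zero_smul, Finset.sum_sub_distrib, ← hpow y, hy,
      Finset.sum_ite_eq', Finset.mem_univ, if_true, sub_self]

/-- `F` is perfect. -/
theorem perfectField_bot (F C : Type*) [Field F] [Field C] [IsAlgClosed C] [Algebra F C]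
    [FiniteDimensional F C] : PerfectField F := by
  obtain ⟨p, _⟩ := CharP.exists F
  rcases CharP.char_is_prime_or_zero F p with hp | rfl
  · haveI := Fact.mk hp
    haveI : ExpChar F p := ExpChar.prime hp
    haveI : PerfectRing F p :=
      PerfectRing.ofSurjective F p fun a => exists_pow_char_eq F C p a
    exact PerfectRing.toPerfectField F p
  · haveI := CharP.charP_to_charZero F
    exact PerfectField.ofCharZero

/-- The extension is Galois. -/
theorem isGalois_of_finite (F C : Type*) [Field F] [Field C] [IsAlgClosed C] [Algebra F C]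
    [FiniteDimensional F C] : IsGalois F C := by
  haveI := perfectField_bot F C
  haveI : Normal F C :=
    normal_iff.2 fun x => ⟨IsIntegral.of_finite F x, IsAlgClosed.splits _⟩
  exact ⟨⟩

variable {p : ℕ}

theorem exists_ne_one (hp : p.Prime) (hdeg : finrank F C = p) :
    ∃ σ : C ≃ₐ[F] C, σ ≠ 1 ∧ (∀ x, σ x = x → x ∈ Set.range (algebraMap F C)) ∧ σ ^ p = 1 := by
  haveI := isGalois_of_finite F C
  haveI := Fact.mk hp
  have hcard : Nat.card (C ≃ₐ[F] C) = p := by rw [IsGalois.card_aut_eq_finrank, hdeg]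
  haveI : Nontrivial (C ≃ₐ[F] C) :=
    Finite.one_lt_card_iff_nontrivial.1 (hcard.symm ▸ hp.one_lt)
  obtain ⟨σ, hσ⟩ := exists_ne (1 : C ≃ₐ[F] C)
  refine ⟨σ, hσ, fun x hx => (IsGalois.mem_range_algebraMap_iff_fixed x).2 fun g => ?_,
    hcard ▸ pow_card_eq_one'⟩
  have hle : Subgroup.zpowers σ ≤ MulAction.stabilizer (C ≃ₐ[F] C) x :=
    Subgroup.zpowers_le.2 hx
  exact hle ((zpowers_eq_top_of_prime_card hcard hσ).symm ▸ Subgroup.mem_top g)

/-- The degree is not the characteristic. -/
theorem false_of_charP [CharP F p] (hp : p.Prime) (hdeg : finrank F C = p) : False := by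
  haveI := Fact.mk hp
  haveI := isGalois_of_finite F C
  haveI : CharP C p := charP_of_injective_algebraMap (algebraMap F C).injective p
  haveI : ExpChar C p := ExpChar.prime hp
  obtain ⟨σ, hσ, hfix, hpow⟩ := exists_ne_one hp hdeg
  set D : Module.End F C := σ.toLinearMap - 1 with hD
  have hDx : ∀ x, D x = σ x - x := fun x => rfl
  haveI : CharP (Module.End F C) p :=
    charP_of_injective_algebraMap (algebraMap F (Module.End F C)).injective p
  haveI : ExpChar (Module.End F C) p := ExpChar.prime hp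
  have hDp : D ^ p = 0 := by
    rw [hD, sub_pow_char_of_commute p (Commute.one_right _), one_pow, ← AlgEquiv.pow_toLinearMap,
      hpow]
    exact sub_eq_zero.2 (LinearMap.ext fun x => rfl)
  obtain ⟨v, hv1, hv2⟩ : ∃ v, D v ≠ 0 ∧ D (D v) = 0 := by
    by_contra hcon
    push Not at hcon
    refine hσ (AlgEquiv.ext fun x => sub_eq_zero.1 ((hDx x).symm.trans ?_))
    have key : ∀ k : ℕ, ∀ y, (D ^ (k + 1)) y = 0 → D y = 0 := fun k => by
      induction k with
      | zero => intro y hy; simpa using hy
      | succ k ih =>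
        intro y hy
        rw [pow_succ, Module.End.mul_apply] at hy
        exact not_not.1 fun h => hcon y h (ih _ hy)
    exact key (p - 1) x (by rw [Nat.sub_add_cancel hp.one_le, hDp]; rfl)
  obtain ⟨u, hu⟩ := hfix (D v) (sub_eq_zero.1 ((hDx _).symm.trans hv2))
  have hu0 : algebraMap F C u ≠ 0 := hu ▸ hv1
  set α := v / algebraMap F C u
  have hσα : σ α = α + 1 := by
    rw [map_div₀, σ.commutes, ← sub_eq_iff_eq_add', ← sub_div, ← hDx, ← hu, div_self hu0]
  obtain ⟨a, ha⟩ := hfix (α ^ p - α) (by
    rw [map_sub, map_pow, hσα, add_pow_char, one_pow]; ring)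
  -- `x ↦ x ^ p - x` is surjective on `F`
  obtain ⟨c, hc⟩ := Algebra.trace_surjective F C a
  obtain ⟨y, hy⟩ := IsAlgClosed.exists_root (X ^ p - X - Polynomial.C c : C[X]) (by
    have h1 : (X + Polynomial.C c : C[X]).degree < (X ^ p : C[X]).degree := by
      rw [degree_X_pow, degree_X_add_C]; exact_mod_cast hp.one_lt
    rw [sub_sub, degree_sub_eq_left_of_degree_lt h1, degree_X_pow]
    exact_mod_cast hp.ne_zero)
  simp only [IsRoot.def, eval_sub, eval_pow, eval_X, eval_C, sub_eq_zero] at hy
  have hat : algebraMap F C a =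
      algebraMap F C (Algebra.trace F C y) ^ p - algebraMap F C (Algebra.trace F C y) := by
    rw [← hc, ← hy, map_sub, map_sub, trace_eq_sum_automorphisms, trace_eq_sum_automorphisms,
      sum_pow_char]
    exact congrArg (· - _) (Finset.sum_congr rfl fun g _ => map_pow g y p)
  set δ := α - algebraMap F C (Algebra.trace F C y)
  have hδ : δ ^ p = δ := by
    rw [sub_pow_char]
    linear_combination hat - ha
  have hmem : δ ∈ (⊥ : Subfield C) := (Subfield.mem_bot_iff_pow_eq_self C p).2 hδ
  have hle : (⊥ : Subfield C) ≤ σ.toRingEquiv.toRingHom.eqLocusField (RingHom.id C) := bot_le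
  have hfix' : σ δ = δ := hle hmem
  rw [map_sub, σ.commutes, hσα, add_sub_right_comm, add_eq_left] at hfix'
  exact one_ne_zero hfix'

/-- A primitive `p`-th root of unity lies in `F`. -/
theorem exists_primitive [NeZero (p : F)] (hp : p.Prime) (hdeg : finrank F C = p) :
    (primitiveRoots p F).Nonempty := by
  haveI : NeZero (p : C) := ⟨by
    rw [← map_natCast (algebraMap F C)]; exact (_root_.map_ne_zero _).2 (NeZero.ne _)⟩
  obtain ⟨z, hz⟩ := HasEnoughRootsOfUnity.exists_primitiveRoot C p
  have hdvd : minpoly F z ∣ cyclotomic p F := minpoly.dvd F z (by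
    rw [aeval_def, ← eval_map, map_cyclotomic]; exact hz.isRoot_cyclotomic hp.pos)
  have hle : (minpoly F z).natDegree ≤ p - 1 := by
    refine (natDegree_le_of_dvd hdvd (cyclotomic_ne_zero p F)).trans ?_
    rw [natDegree_cyclotomic, Nat.totient_prime hp]
  have hdiv : (minpoly F z).natDegree ∣ p := hdeg ▸ minpoly.degree_dvd (IsIntegral.of_finite F z)
  rcases (Nat.dvd_prime hp).1 hdiv with h | h
  · obtain ⟨w, hw⟩ := (minpoly.natDegree_eq_one_iff).1 h
    refine ⟨w, (mem_primitiveRoots hp.pos).2 (IsPrimitiveRoot.of_map_of_injective (hw ▸ hz)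
      (algebraMap F C).injective)⟩
  · have := hp.one_le; omega

theorem not_pow_of_kummer [NeZero (p : F)] (hp : p.Prime) (hdeg : finrank F C = p) :
    ∃ a : F, ∀ b, b ^ p ≠ a := by
  haveI := isGalois_of_finite F C
  haveI := Fact.mk hp
  haveI : IsCyclic (C ≃ₐ[F] C) := isCyclic_of_prime_card (p := p) (by rw [IsGalois.card_aut_eq_finrank, hdeg])
  obtain ⟨α, ⟨a, ha⟩, hα⟩ := exists_root_adjoin_eq_top_of_isCyclic F C
    (hdeg.symm ▸ exists_primitive hp hdeg)
  have h := irreducible_X_pow_sub_C_of_root_adjoin_eq_top ha.symm hα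
  rw [hdeg] at h
  exact ⟨a, pow_ne_of_irreducible_X_pow_sub_C h dvd_rfl hp.ne_one⟩

/-- The norm of a `p`-th root. -/
theorem norm_root (hp : p.Prime) (hdeg : finrank F C = p) {a : F} (ha : ∀ b, b ^ p ≠ a) {γ : C}
    (hγ : γ ^ p = algebraMap F C a) : Algebra.norm F γ = (-1) ^ p * -a := by
  have hmin : minpoly F γ = X ^ p - Polynomial.C a :=
    (minpoly.eq_of_irreducible_of_monic (X_pow_sub_C_irreducible_of_prime hp ha)
      (by simp [hγ]) (monic_X_pow_sub_C a hp.ne_zero)).symm
  have hint := IsIntegral.of_finite F γ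
  have hone : finrank F⟮γ⟯ C = 1 := by
    have h := finrank_mul_finrank F F⟮γ⟯ C
    rw [IntermediateField.adjoin.finrank hint, hmin, natDegree_X_pow_sub_C, hdeg] at h
    exact Nat.eq_of_mul_eq_mul_left hp.pos (h.trans (mul_one p).symm)
  rw [Algebra.norm_eq_norm_adjoin F γ, hone, pow_one, ← adjoin.powerBasis_gen hint,
    Algebra.PowerBasis.norm_gen_eq_coeff_zero_minpoly, adjoin.powerBasis_gen hint,
    adjoin.powerBasis_dim hint, minpoly_gen, hmin, natDegree_X_pow_sub_C]
  simp [coeff_X_pow, hp.ne_zero.symm]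

theorem norm_is_power (hp : p.Prime) (γ : C) :
    ∃ b : F, b ^ p = Algebra.norm F γ := by
  obtain ⟨β, rfl⟩ := IsAlgClosed.exists_pow_nat_eq γ hp.pos
  exact ⟨Algebra.norm F β, (map_pow _ _ _).symm⟩

/-- **Prime degree.** -/
theorem prime_degree (hp : p.Prime) (hdeg : finrank F C = p) :
    p = 2 ∧ ¬ IsSquare (-1 : F) ∧ ∀ x : F, IsSquare x ∨ IsSquare (-x) := by
  haveI : NeZero (p : F) := ⟨fun h => by
    haveI := (CharP.charP_iff_prime_eq_zero hp).2 h
    exact false_of_charP hp hdeg⟩
  obtain ⟨a, ha⟩ := not_pow_of_kummer hp hdeg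
  obtain ⟨γ, hγ⟩ := IsAlgClosed.exists_pow_nat_eq (algebraMap F C a) hp.pos
  obtain ⟨b, hb⟩ := norm_is_power (F := F) hp γ
  rw [norm_root hp hdeg ha hγ] at hb
  rcases hp.eq_two_or_odd' with rfl | hodd
  · rw [neg_one_sq, one_mul] at hb
    refine ⟨rfl, fun ⟨i, hi⟩ => ha (b * i) ?_, fun x => ?_⟩
    · rw [mul_pow, hb, sq i, ← hi]; ring
    · by_cases hx : ∀ b, b ^ 2 ≠ x
      · obtain ⟨δ, hδ⟩ := IsAlgClosed.exists_pow_nat_eq (algebraMap F C x) two_pos
        obtain ⟨c, hc⟩ := norm_is_power (F := F) hp δ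
        rw [norm_root hp hdeg hx hδ, neg_one_sq, one_mul] at hc
        exact .inr ⟨c, by rw [← hc, sq]⟩
      · push Not at hx
        obtain ⟨c, hc⟩ := hx
        exact .inl ⟨c, by rw [← hc, sq]⟩
  · rw [hodd.neg_one_pow, neg_one_mul, neg_neg] at hb
    exact absurd hb (ha b)

end FA.ArtinSchreier
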