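import Fermat.Agent.ArtinSchreier.Basic
import Fermat.Agent.ArtinSchreier.Embedding

/-!
# Elements of finite order of the absolute Galois group of `ℚ`

They are the identity and the conjugates of complex conjugation, whose centraliser has two
elements; so the centre is trivial.
-/

set_option autoImplicit false
set_option linter.style.haveILetI false

noncomputable section

open Polynomial Module ComplexConjugate

namespace FA.ArtinSchreier

/-- The algebraic closure. -/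
local notation "Q̄" => AlgebraicClosure ℚ

theorem isAlgebraic_qbar : Algebra.IsAlgebraic ℚ Q̄ := AlgebraicClosure.isAlgebraic ℚ

theorem normal_qbar : Normal ℚ Q̄ :=
  haveI : IsAlgClosure ℚ Q̄ := ⟨inferInstance, isAlgebraic_qbar⟩
  IsAlgClosure.normal ℚ Q̄

attribute [local instance] isAlgebraic_qbar normal_qbar

/-- `σ` is complex conjugation along `ι`. -/
def IsConjAlong (ι : AlgebraicClosure ℚ →+* ℂ) (σ : AlgebraicClosure ℚ ≃ₐ[ℚ] AlgebraicClosure ℚ) :
    Prop :=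
  ∀ x, ι (σ x) = conj (ι x)

theorem IsConjAlong.sq_eq_one {ι : Q̄ →+* ℂ} {c : Q̄ ≃ₐ[ℚ] Q̄} (hc : IsConjAlong ι c) :
    ∀ x, c (c x) = x :=
  fun x => ι.injective (by rw [hc, hc, Complex.conj_conj])

theorem IsConjAlong.unique {ι : Q̄ →+* ℂ} {c c' : Q̄ ≃ₐ[ℚ] Q̄} (hc : IsConjAlong ι c)
    (hc' : IsConjAlong ι c') : c = c' :=
  AlgEquiv.ext fun x => ι.injective (by rw [hc, hc'])

theorem IsConjAlong.ne_one {ι : Q̄ →+* ℂ} {c : Q̄ ≃ₐ[ℚ] Q̄} (hc : IsConjAlong ι c) : c ≠ 1 :=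
  fun h => by
    obtain ⟨i, hi⟩ := IsAlgClosed.exists_eq_mul_self (-1 : Q̄)
    have h1 : ι i * ι i = -1 := by rw [← map_mul, ← hi, map_neg, map_one]
    have h2 : (ι i).im = 0 := Complex.conj_eq_iff_im.1 (by rw [← hc, h, AlgEquiv.one_apply])
    have h3 := congrArg Complex.re h1
    simp [h2] at h3
    nlinarith [mul_self_nonneg (ι i).re]

theorem exists_isConjAlong (ι : Q̄ →+* ℂ) : ∃ c, IsConjAlong ι c := by
  let _ : Algebra Q̄ ℂ := ι.toAlgebra
  haveI : IsScalarTower ℚ Q̄ ℂ :=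
    IsScalarTower.of_algebraMap_eq fun q => by simp
  refine ⟨(Complex.conjAe.restrictScalars ℚ).restrictNormal Q̄, fun x => ?_⟩
  exact AlgEquiv.restrictNormal_commutes (Complex.conjAe.restrictScalars ℚ) Q̄ x

/-- An element of finite order is complex conjugation along some embedding. -/
theorem exists_embedding_of_isOfFinOrder {σ : Q̄ ≃ₐ[ℚ] Q̄} (h : IsOfFinOrder σ) (hne : σ ≠ 1) :
    ∃ ψ : Q̄ →+* ℂ, IsConjAlong ψ σ := by
  set s : Q̄ ≃+* Q̄ := σ.toRingEquiv
  have hs : IsOfFinOrder s := by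
    obtain ⟨n, hn, he⟩ := isOfFinOrder_iff_pow_eq_one.1 h
    refine isOfFinOrder_iff_pow_eq_one.2 ⟨n, hn, RingEquiv.ext fun x => ?_⟩
    have hpow : ∀ m : ℕ, ∀ y, (s ^ m) y = (σ ^ m) y := fun m => by
      induction m with
      | zero => intro y; rfl
      | succ m ih => intro y; rw [pow_succ, pow_succ]; exact ih (σ y)
    rw [hpow, he]; rfl
  have hs1 : s ≠ 1 := fun e => hne (AlgEquiv.ext fun x => RingEquiv.congr_fun e x)
  obtain ⟨hsq, hrc⟩ := torsion_ringEquiv s hs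
  obtain ⟨hR, -⟩ := hrc hs1
  obtain ⟨hfin, -⟩ := finite_over_fixedOf s hs
  haveI : Algebra.IsAlgebraic ℚ (fixedOf s) :=
    Algebra.IsAlgebraic.tower_bot ℚ (fixedOf s) Q̄
  obtain ⟨φ⟩ := exists_ringHom_real (fixedOf s)
  let _ : Algebra (fixedOf s) ℂ := (Complex.ofRealHom.comp φ).toAlgebra
  set ψ : Q̄ →ₐ[fixedOf s] ℂ := IsAlgClosed.lift
  refine ⟨ψ.toRingHom, fun x => ?_⟩
  have hinv : σ (σ x) = x := by
    have h2 := RingEquiv.congr_fun hsq x
    rw [sq] at h2
    exact h2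
  have hreal : ∀ r : Q̄, σ r = r → ∃ t : ℝ, ψ r = t := fun r hr =>
    ⟨φ ⟨r, hr⟩, ψ.commutes (⟨r, hr⟩ : fixedOf s)⟩
  obtain ⟨r, hr⟩ := hreal (x + σ x) (by rw [map_add, hinv, add_comm])
  set y := x - σ x with hy
  have hσy : σ y = -y := by rw [hy, map_sub, hinv, neg_sub]
  have hy2 : σ (y * y) = y * y := by rw [map_mul, hσy, neg_mul_neg]
  have himag : conj (ψ y) = -ψ y := by
    rcases hR.isSquare_or_isSquare_neg ⟨y * y, hy2⟩ with ⟨⟨d, hd⟩, h2⟩ | ⟨⟨d, hd⟩, h2⟩
    · have h3 : y * y = d * d := congrArg Subtype.val h2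
      have h4 : σ y = y := by
        rcases mul_self_eq_mul_self_iff.1 h3 with e | e <;> rw [e]
        · exact hd
        · rw [map_neg]; exact congrArg Neg.neg hd
      have h5 : y = 0 := by linear_combination (hσy.symm.trans h4) * (-1 / 2 : Q̄)
      rw [h5, map_zero, map_zero, neg_zero]
    · have h3 : -(y * y) = d * d := congrArg Subtype.val h2
      obtain ⟨t, ht⟩ := hreal d hd
      have h4 : (ψ y - Complex.I * t) * (ψ y + Complex.I * t) = 0 := by
        have h5 := congrArg ψ h3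
        rw [map_neg, map_mul, map_mul, ht] at h5
        linear_combination -h5 - (t : ℂ) ^ 2 * Complex.I_mul_I
      rcases mul_eq_zero.1 h4 with e | e
      · rw [sub_eq_zero.1 e, map_mul, Complex.conj_I, Complex.conj_ofReal]; ring
      · rw [eq_neg_of_add_eq_zero_left e, map_neg, map_mul, Complex.conj_I, Complex.conj_ofReal]
        ring
  show ψ (σ x) = conj (ψ x)
  have hx : ψ x = ((r : ℂ) + ψ y) / 2 := by rw [hy, map_sub, ← hr, map_add]; ring
  have hσx : ψ (σ x) = ((r : ℂ) - ψ y) / 2 := by rw [hy, map_sub, ← hr, map_add]; ring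
  rw [hσx, hx, map_div₀, map_add, himag, Complex.conj_ofReal, map_ofNat, sub_eq_add_neg]

/-- **Conjugate to complex conjugation.** -/
theorem exists_conj_of_isOfFinOrder (ι : Q̄ →+* ℂ) {σ : Q̄ ≃ₐ[ℚ] Q̄} (h : IsOfFinOrder σ)
    (hne : σ ≠ 1) : ∃ τ : Q̄ ≃ₐ[ℚ] Q̄, IsConjAlong ι (τ * σ * τ⁻¹) := by
  obtain ⟨ψ, hψ⟩ := exists_embedding_of_isOfFinOrder h hne
  let _ : Algebra Q̄ ℂ := ι.toAlgebra
  haveI : IsScalarTower ℚ Q̄ ℂ :=
    IsScalarTower.of_algebraMap_eq fun q => by simp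
  set τ := AlgHom.restrictNormal' ψ.toRatAlgHom Q̄
  have hτ : ∀ x, ι (τ x) = ψ x := fun x => AlgHom.restrictNormal_commutes ψ.toRatAlgHom Q̄ x
  refine ⟨τ, fun x => ?_⟩
  rw [AlgEquiv.mul_apply, AlgEquiv.mul_apply, hτ, hψ, ← hτ]
  exact congrArg (fun z => conj (ι z)) (τ.apply_symm_apply x)

/-- A positive real algebraic number is the square of one. -/
theorem exists_sq_of_pos {ι : Q̄ →+* ℂ} {c : Q̄ ≃ₐ[ℚ] Q̄} (hc : IsConjAlong ι c) {u : Q̄}
    (hu : c u = u) (hpos : 0 < (ι u).re) : ∃ v, c v = v ∧ v * v = u := by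
  obtain ⟨v, hv⟩ := IsAlgClosed.exists_eq_mul_self u
  refine ⟨v, ι.injective ?_, hv.symm⟩
  rw [hc, Complex.conj_eq_iff_im]
  have h1 : (ι u).im = 0 := Complex.conj_eq_iff_im.1 (by rw [← hc, hu])
  rw [hv, map_mul, Complex.mul_im] at h1
  rw [hv, map_mul, Complex.mul_re] at hpos
  by_contra h2
  have h3 : (ι v).re = 0 := by
    rcases mul_eq_zero.1 (show (ι v).re * (ι v).im = 0 by linarith) with h | h
    · exact h
    · exact absurd h h2
  rw [h3] at hpos
  nlinarith [mul_self_nonneg (ι v).im]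

/-- A commuting element fixes the real algebraic numbers. -/
theorem fixes_real {ι : Q̄ →+* ℂ} {c g : Q̄ ≃ₐ[ℚ] Q̄} (hc : IsConjAlong ι c)
    (hg : ∀ x, g (c x) = c (g x)) {x : Q̄} (hx : c x = x) : g x = x := by
  have him : ∀ y, c y = y → (ι y).im = 0 := fun y hy =>
    Complex.conj_eq_iff_im.1 (by rw [← hc, hy])
  have hgx : c (g x) = g x := by rw [← hg, hx]
  have hpos : ∀ u, c u = u → 0 < (ι u).re → 0 ≤ (ι (g u)).re := fun u hu hp => by
    obtain ⟨v, hv, rfl⟩ := exists_sq_of_pos hc hu hp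
    rw [map_mul, map_mul, Complex.mul_re, him (g v) (by rw [← hg, hv]), mul_zero, sub_zero]
    exact mul_self_nonneg _
  refine ι.injective (Complex.ext ?_ (by rw [him _ hgx, him _ hx]))
  have hq : ∀ (y : Q̄) (q : ℚ), (ι (y - (q : Q̄))).re = (ι y).re - q := fun y q => by simp
  have hcq : ∀ (q : ℚ), c (x - (q : Q̄)) = x - (q : Q̄) := fun q => by rw [map_sub, hx, map_ratCast]
  rcases lt_trichotomy (ι (g x)).re (ι x).re with h | h | h
  · obtain ⟨q, h1, h2⟩ := exists_rat_btwn h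
    have h3 := hpos (x - (q : Q̄)) (hcq q) (by rw [hq]; linarith)
    rw [map_sub, map_ratCast, hq] at h3
    linarith
  · exact h
  · obtain ⟨q, h1, h2⟩ := exists_rat_btwn h
    have h3 := hpos (-(x - (q : Q̄))) (by rw [map_neg, hcq]) (by rw [map_neg, Complex.neg_re, hq]; linarith)
    rw [map_neg, map_sub, map_ratCast, map_neg, Complex.neg_re, hq] at h3
    linarith

/-- **The centraliser of complex conjugation.** -/
theorem centralizer_conj {ι : Q̄ →+* ℂ} {c g : Q̄ ≃ₐ[ℚ] Q̄} (hc : IsConjAlong ι c)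
    (hg : g * c = c * g) : g = 1 ∨ g = c := by
  have hg' : ∀ x, g (c x) = c (g x) := fun x => AlgEquiv.congr_fun hg x
  obtain ⟨i, hi⟩ := IsAlgClosed.exists_eq_mul_self (-1 : Q̄)
  have hi0 : i ≠ 0 := fun h => by simp [h] at hi
  have hci : c i = -i := by
    have h : c i * c i = i * i := by rw [← map_mul, ← hi, map_neg, map_one]
    refine (mul_self_eq_mul_self_iff.1 h).resolve_left fun h1 => ?_
    have h2 : (ι i).im = 0 := Complex.conj_eq_iff_im.1 (by rw [← hc, h1])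
    have h3 : ι i * ι i = -1 := by rw [← map_mul, ← hi, map_neg, map_one]
    have h4 := congrArg Complex.re h3
    simp [h2] at h4
    nlinarith [mul_self_nonneg (ι i).re]
  have hdec : ∀ x, ∃ a b, c a = a ∧ c b = b ∧ x = a + b * i := fun x => by
    refine ⟨(x + c x) / 2, (x - c x) / (2 * i), ?_, ?_, ?_⟩
    · rw [map_div₀, map_add, hc.sq_eq_one, map_ofNat, add_comm]
    · rw [map_div₀, map_sub, hc.sq_eq_one, map_mul, map_ofNat, hci]
      field_simp
      ring
    · field_simp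
      ring
  have hgi : g i * g i = i * i := by rw [← map_mul, ← hi, map_neg, map_one]
  rcases mul_self_eq_mul_self_iff.1 hgi with h | h
  · refine .inl (AlgEquiv.ext fun x => ?_)
    obtain ⟨a, b, ha, hb, rfl⟩ := hdec x
    rw [map_add, map_mul, fixes_real hc hg' ha, fixes_real hc hg' hb, h, AlgEquiv.one_apply]
  · refine .inr (AlgEquiv.ext fun x => ?_)
    obtain ⟨a, b, ha, hb, rfl⟩ := hdec x
    rw [map_add, map_mul, fixes_real hc hg' ha, fixes_real hc hg' hb, h, map_add, map_mul, ha, hb,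
      hci]

/-- **The centre is trivial.** -/
theorem center_eq_bot : Subgroup.center (Q̄ ≃ₐ[ℚ] Q̄) = ⊥ := by
  refine eq_bot_iff.2 fun z hz => Subgroup.mem_bot.2 ?_
  rw [Subgroup.mem_center_iff] at hz
  let ι : Q̄ →+* ℂ := (IsAlgClosed.lift : Q̄ →ₐ[ℚ] ℂ).toRingHom
  obtain ⟨c, hc⟩ := exists_isConjAlong ι
  refine (centralizer_conj hc (hz c).symm).resolve_right fun hzc => ?_
  rw [hzc] at hz
  -- a real cube root of `2`
  have hirr : Irreducible (X ^ 3 - Polynomial.C (2 : ℚ)) :=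
    X_pow_sub_C_irreducible_of_prime Nat.prime_three fun b hb => by
      have hint : IsIntegral ℤ b := ⟨X ^ 3 - Polynomial.C 2, monic_X_pow_sub_C _ (by norm_num),
        by simp [hb]⟩
      obtain ⟨y, rfl⟩ := IsIntegrallyClosed.isIntegral_iff.1 hint
      have hy : y ^ 3 = 2 := by
        simp only [eq_intCast] at hb
        exact_mod_cast hb
      have h1 : y ≤ 1 := by nlinarith [sq_nonneg y, sq_nonneg (y - 2), sq_nonneg (y + 1)]
      have h0 : 1 ≤ y := by nlinarith [sq_nonneg y, sq_nonneg (y - 1), sq_nonneg (y + 1)]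
      have : y = 1 := by omega
      subst this
      norm_num at hy
  obtain ⟨x, hx⟩ := IsAlgClosed.exists_pow_nat_eq (2 : Q̄) three_pos
  have hmin : ∀ y : Q̄, y ^ 3 = 2 → minpoly ℚ y = X ^ 3 - Polynomial.C 2 := fun y hy =>
    (minpoly.eq_of_irreducible_of_monic hirr (by simp [hy]) (monic_X_pow_sub_C _ (by norm_num))).symm
  obtain ⟨w, hw⟩ := HasEnoughRootsOfUnity.exists_primitiveRoot Q̄ 3
  have hconj : ∀ y, y ^ 3 = 2 → c y = y := fun y hy => by
    obtain ⟨r, hr⟩ : ∃ r : ℝ, r ^ 3 = 2 :=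
      ⟨(2 : ℝ) ^ ((1 : ℝ) / 3), by rw [← Real.rpow_natCast, ← Real.rpow_mul (by norm_num)]; norm_num⟩
    obtain ⟨x₀, hx₀, hx₀r⟩ : ∃ x₀ : Q̄, x₀ ^ 3 = 2 ∧ ι x₀ = r := by
      have h1 : (ι x / r) ^ 3 = 1 := by
        rw [div_pow, ← map_pow, hx, map_ofNat, ← Complex.ofReal_pow, hr, Complex.ofReal_ofNat,
          div_self two_ne_zero]
      obtain ⟨j, -, hj⟩ := (hw.map_of_injective ι.injective).eq_pow_of_pow_eq_one h1
      refine ⟨x / w ^ j, ?_, ?_⟩
      · rw [div_pow, hx, ← pow_mul, mul_comm, pow_mul, hw.pow_eq_one, one_pow, div_one]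
      · have hr0 : (r : ℂ) ≠ 0 := by
          intro h
          rw [Complex.ofReal_eq_zero] at h
          rw [h] at hr
          norm_num at hr
        have hw0 : ι w ^ j ≠ 0 := pow_ne_zero _ ((_root_.map_ne_zero ι).2 (hw.ne_zero (by norm_num)))
        rw [map_div₀, map_pow, div_eq_iff hw0, hj]
        field_simp
    obtain ⟨g, hg⟩ := minpoly.exists_algEquiv_of_root' (x := y) (y := x₀)
      (Algebra.IsAlgebraic.isAlgebraic (R := ℚ) x₀) (by rw [hmin x₀ hx₀]; simp [hy])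
    have h3 : c x₀ = x₀ := ι.injective (by rw [hc, hx₀r, Complex.conj_ofReal])
    have h4 := AlgEquiv.congr_fun (hz g) x₀
    simp only [AlgEquiv.mul_apply, h3, hg] at h4
    exact h4.symm
  have h5 : c (x * w) = x * w := hconj _ (by rw [mul_pow, hx, hw.pow_eq_one, mul_one])
  rw [map_mul, hconj x hx] at h5
  have hx0 : x ≠ 0 := fun h => by simp [h] at hx
  have h6 : (ι w).im = 0 := Complex.conj_eq_iff_im.1 (by rw [← hc, mul_left_cancel₀ hx0 h5])
  have h7 : ι w ^ 3 = 1 := by rw [← map_pow, hw.pow_eq_one, map_one]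
  have h8 : ι w = ((ι w).re : ℂ) := Complex.ext rfl (by simp [h6])
  rw [h8, ← Complex.ofReal_pow, Complex.ofReal_eq_one] at h7
  have h9 : (ι w).re = 1 := (pow_eq_one_iff_of_nonneg (by
    by_contra hneg
    nlinarith [sq_nonneg (ι w).re]) three_ne_zero).1 h7
  exact hw.ne_one (by norm_num) (ι.injective (by rw [h8, h9, map_one, Complex.ofReal_one]))

end FA.ArtinSchreier
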